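import Fermat.Statements.S29
import Fermat.Agent.Attach.Inputs
import Fermat.Agent.Attach.Residual

/-! # S29: mod `p` representations attached to eigenforms -/

open CuspForm CuspForm.IsNormalizedEigenform

namespace Fermat.Agent.S29

theorem result
    {N : ℕ} {g : CuspForm (CongruenceSubgroup.Gamma0 N) 2} (hg : g.IsNormalizedEigenform)
    {p : ℕ} (hp : p.Prime) {k : Type} [Field k] [CharP k p]
    (φ : integralClosure ℤ ℂ →+* k) :
    ∃ ρ : ResidualGaloisRep k, ρ.IsAttachedTo g φ ∧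
      ∀ ℓ : ℕ, ℓ.Prime → ¬ ℓ ∣ N * p → ρ.IsUnramifiedAt ℓ := by
  have : Fact p.Prime := ⟨hp⟩
  rcases eq_or_ne N 0 with rfl | hN
  · refine ⟨Fermat.Agent.Attach.residualOfMatrix 1 ⟨⊥, inferInstance, fun _ _ => rfl⟩, ?_, ?_⟩
    · exact fun ℓ _ h => absurd (dvd_zero ℓ) h
    · intro ℓ _ h
      exact absurd (by simp) h
  · have : NeZero N := ⟨hN⟩
    exact Fermat.Agent.Attach.exists_residualGaloisRep_isAttachedTo_of_inputs hg
      (Fermat.Agent.Attach.nonempty_jacobianInputs N p).some φ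

end Fermat.Agent.S29
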