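import Fermat.Statements.S11
import Fermat.Agent.EC.DetCyclotomic
import Fermat.Agent.ExponentEleven.Main
import Fermat.Agent.Frey.FreyModel

/-! # S11: no cofixed line in the Frey representation for `p = 11` -/

open WeierstrassCurve WeierstrassCurve.Affine WeierstrassCurve.Affine.Point
open CuspForm ModularFormClass UpperHalfPlane
open FreyPackage

namespace Fermat.Agent.S11

theorem result (P : FreyPackage) (hp : P.p = 11) : ¬ HasGaloisStableCofixedLine (K := AlgebraicClosure ℚ) ℚ P.freyCurve P.p := by
  rw [hp]
  have hΔ := Frey.freyCurveInt_Δ_ne_zero P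
  have : P.freyCurve.IsElliptic := by
    rw [Frey.freyCurve_eq_map P]
    refine ⟨isUnit_iff_ne_zero.2 ?_⟩
    rw [WeierstrassCurve.map_Δ, eq_intCast]
    exact Int.cast_ne_zero.2 hΔ
  exact ExponentEleven.no_cofixed_eleven P.freyCurve fun hn =>
    EC.galoisRepDetEqCyclotomic P.freyCurve 11 hn

end Fermat.Agent.S11
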