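import Fermat.Statements.S17
import Fermat.Agent.MW.Main
import Fermat.Agent.Red.Genus

/-! # S17: Mordell–Weil for `J₀(N)` at prime level -/

open ModularCurve AlgebraicCurve
open ModularCurve ModularCurve.JZero

namespace Fermat.Agent.S17

theorem result (N : ℕ) [NeZero N] (hN : N.Prime) (hN5 : 5 ≤ N) :
    AddGroup.FG ↥(FixedPoints.addSubgroup ((AlgebraicClosure ℚ) ≃ₐ[ℚ] (AlgebraicClosure ℚ)) (JZero N)) := by
  exact Fermat.Agent.MW.fg_of_genusLe fun ℓ hℓ hℓN A hA =>
    haveI := Fact.mk hℓ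
    Fermat.Agent.Red.genus_le A hℓN hA

end Fermat.Agent.S17
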