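import Fermat.Statements.S12
import Fermat.Agent.Mazur.Assemble
import Fermat.Agent.Mazur.Immersion.Main

/-! # S12: no cofixed line in the Frey representation for `p ≥ 17` -/

open WeierstrassCurve WeierstrassCurve.Affine WeierstrassCurve.Affine.Point
open CuspForm ModularFormClass UpperHalfPlane
open FreyPackage

namespace Fermat.Agent.S12

theorem result (P : FreyPackage) (hp : 17 ≤ P.p) : ¬ HasGaloisStableCofixedLine (K := AlgebraicClosure ℚ) ℚ P.freyCurve P.p := by
  have : NeZero P.p := ⟨P.pp.ne_zero⟩
  exact Fermat.Agent.Mazur.frey_no_cofixed_large_of P hp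
    (Fermat.Agent.Mazur.noCuspDiscLine_of_formalImmersion P.pp (by omega) (by omega)
      (@Fermat.Agent.Mazur.Immersion.formalImmersion P.p ⟨P.pp⟩ (by omega)))

end Fermat.Agent.S12
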