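import Fermat.Statements.S09
import Fermat.Agent.Mazur.FreyIrreducible
import Fermat.Agent.S10
import Fermat.Agent.S11
import Fermat.Agent.S12

/-! # S09: Mazur: the mod `p` representation of the Frey curve is irreducible -/

open WeierstrassCurve WeierstrassCurve.Affine WeierstrassCurve.Affine.Point
open CuspForm ModularFormClass UpperHalfPlane
open FreyPackage

namespace Fermat.Agent.S09

theorem result (P : FreyPackage) : GaloisRepIsIrreducible (K := AlgebraicClosure ℚ) ℚ P.freyCurve P.p := by
  exact Fermat.Agent.Mazur.frey_irreducible_of P (Fermat.Agent.S10.result P)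
    (Fermat.Agent.S11.result P) (Fermat.Agent.S12.result P)

end Fermat.Agent.S09
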