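import Fermat.Statements.S43
import Fermat.Agent.LevelLowering.Scalar.SupplyMain

/-! # S43: level lowering at odd primes `q ≠ p` for the Frey curve -/

open WeierstrassCurve WeierstrassCurve.Affine WeierstrassCurve.Affine.Point
open CuspForm ModularFormClass UpperHalfPlane
open FreyPackage

namespace Fermat.Agent.S43

theorem result (P : FreyPackage) {N q : ℕ} (hcond : P.IsConductorLevel N) (hq : q.Prime) (hq2 : q ≠ 2) (hqp : q ≠ P.p) (hqN : q ∣ N) (hirr : GaloisRepIsIrreducible (K := AlgebraicClosure ℚ) ℚ P.freyCurve P.p) (hmod : P.ModularRepOfLevel N) (hunr : P.GaloisRepUnramifiedAt q) : ∃ M : ℕ, M ∣ N ∧ ¬ q ∣ M ∧ P.ModularRepOfLevel M := by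
  exact Fermat.Agent.LevelLowering.Scalar.level_lowering_odd_of_levelSupply
    (fun Q _ _ => Fermat.Agent.LevelLowering.Scalar.levelSupply Q) P hcond hq hq2 hirr hmod

end Fermat.Agent.S43
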