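import Fermat.Statements.S01
import Fermat.Agent.Glue.Squarefree
import Fermat.Agent.Raising.Lifting.Final
import Fermat.Agent.ResidualThree.SquarefreeLevel.Main
import Fermat.Agent.S09
import Fermat.Agent.S43
import Fermat.Agent.S44

/-! # S01: Fermat's Last Theorem: for `n ≥ 3` and positive `a, b, c`, `a ^ n + b ^ n ≠ c ^ n` -/

namespace Fermat.Agent.S01

theorem result (n : ℕ) (hn : 3 ≤ n) (a b c : ℕ) (ha : 0 < a) (hb : 0 < b) (hc : 0 < c) : a ^ n + b ^ n ≠ c ^ n := by
  exact Fermat.Agent.Glue.flt_of_squarefree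
    Fermat.Agent.ResidualThree.SquarefreeLevel.residualThreeSquarefree
    Fermat.Agent.Raising.Lifting.liftingSquarefree
    (fun Q => Fermat.Agent.S09.result Q)
    (fun Q _ _ hcond hq hq2 hqp hqN hirr hmod hunr =>
      Fermat.Agent.S43.result Q hcond hq hq2 hqp hqN hirr hmod hunr)
    (fun Q _ hcond hpN hirr hmod => Fermat.Agent.S44.result Q hcond hpN hirr hmod)
    n hn a b c ha hb hc

end Fermat.Agent.S01
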