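import Mathlib.NumberTheory.FLT.Basic
import Fermat.Agent.S01

/-!
# Fermat's Last Theorem in Mathlib's formulation
-/

namespace Fermat.Agent.FLT

/-- Fermat's Last Theorem, as Mathlib states it. -/
theorem fermatLastTheorem : FermatLastTheorem := fun n hn a b c ha hb hc =>
  Fermat.Agent.S01.result n hn a b c (Nat.pos_of_ne_zero ha) (Nat.pos_of_ne_zero hb)
    (Nat.pos_of_ne_zero hc)

/-- Fermat's Last Theorem over the integers. -/
theorem fermatLastTheorem_int {n : ℕ} (hn : 3 ≤ n) {a b c : ℤ} (ha : a ≠ 0) (hb : b ≠ 0)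
    (hc : c ≠ 0) : a ^ n + b ^ n ≠ c ^ n :=
  fermatLastTheoremFor_iff_int.mp (fermatLastTheorem n hn) a b c ha hb hc

/-- Fermat's Last Theorem over the rationals. -/
theorem fermatLastTheorem_rat {n : ℕ} (hn : 3 ≤ n) {a b c : ℚ} (ha : a ≠ 0) (hb : b ≠ 0)
    (hc : c ≠ 0) : a ^ n + b ^ n ≠ c ^ n :=
  fermatLastTheoremFor_iff_rat.mp (fermatLastTheorem n hn) a b c ha hb hc

end Fermat.Agent.FLT
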