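import Fermat.Statements.S52
import Fermat.Agent.EC.FrobTrace
import Fermat.Agent.Switch.Main

/-! # S52: the 3–5 switch -/

open WeierstrassCurve WeierstrassCurve.Affine WeierstrassCurve.Affine.Point
open CuspForm ModularFormClass UpperHalfPlane
open WeierstrassCurve

namespace Fermat.Agent.S52

theorem result (W : WeierstrassCurve ℤ) (hΔ : W.Δ ≠ 0) (hW : W.IsSemistableModel) (h5 : W.ModRepIsIrreducible 5) : ∃ W' : WeierstrassCurve ℤ, W'.Δ ≠ 0 ∧ W'.IsSemistableModel ∧ W'.ModRepIsIrreducible 3 ∧ ∀ ℓ : ℕ, ℓ.Prime → W.IsGoodPrimeFor ℓ → W'.IsGoodPrimeFor ℓ → ℓ ≠ 5 → (5 : ℤ) ∣ (W'.apOfModel ℓ - W.apOfModel ℓ) := by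
  have : Fact (Nat.Prime 5) := ⟨by norm_num⟩
  exact Fermat.Agent.Switch.threeFiveSwitch
    (fun V ℓ hℓ hne hgood _ _ hA hσ ↦
      Fermat.Agent.EC.galoisTrace_frobenius V 5 ℓ hℓ hne hgood hA hσ)
    (fun _ hℓ ↦ Fermat.Agent.Gal.exists_liesOverPrime_isFrobeniusAt hℓ) W hΔ hW

end Fermat.Agent.S52
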