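/-!
# Overview of the library

The statements are proved in `Fermat.Agent.S01` to `Fermat.Agent.S60`; `Fermat.Agent.FLT` restates
the root as Mathlib's `FermatLastTheorem`.  This file only documents the layout and declares
nothing.

## Route to `S01`

* `Glue/Top`, `Glue/Frey`: a counterexample gives a Frey package (`S02`); its representation is
  unramified away from `2 p` (`S05`) and irreducible (`S09`).  Modularity at the conductor and
  level lowering (`S43`, `S44`) lead to a weight two form of level dividing two, and there is
  none (`S07`, `S08`).
* `S09` (Mazur): a reducible representation has a cofixed line (`S13`); there is none for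
  `p = 5, 7, 13` (`S10`), `p = 11` (`S11`) and `p ≥ 17` (`S12`: formal immersion at `∞` and the
  Eisenstein quotient of rank zero in `Mazur`, using `S17` and `S18`).
* `S44` (`LoweringAtP`): Mazur's principle at `p` on the model of `X₀(N)`.  `S43`
  (`LevelLowering/Scalar`) first removes `p` by `S44`, then Taylor–Wiles levels show that no odd
  prime is left in a minimal level.
* `Glue/Squarefree`: a semistable curve is modular of its conductor level, given a squarefree
  residual level at 3 and lifting from squarefree levels, by `S51` and the 3–5 switch (`S52`).
* `ResidualThree/SquarefreeLevel/Main`: the squarefree residual level at 3.  Langlands–Tunnell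
  (`ResidualThree`): theta series over a cubic extension, cubic descent to `ℚ(√-3)` with a twist of
  tame level, quadratic descent to weight one; multiplication by the hexagonal theta series to
  weight two; removal of the squares from the level through cohomology of `Γ₀`
  (`Raising/SquareRemoval`); removal of the powers of 3 (`RemoveThree`).  `S50` is a separate
  corollary of the same descents.
* `Raising/Lifting/Final`: lifting from squarefree levels.  Shrink to a minimal level and add an
  auxiliary prime; a minimal level has no scalar prime (`LevelLowering/Semistable`, with Mazur's
  principle at any odd residual prime from `LoweringAtP/Three`); raise through the missing bad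
  primes with patched Taylor–Wiles levels, the residual prime last when it divides the
  discriminant.  The abstract raising theorem is in `Raising/Tower`, `Raising/Levels`,
  `Raising/RaiseMain` and `Raising/AtResidualPrime/LastBuilder`; its modular inputs are in
  `Raising/Modular`. The eigenclass at the top is brought to the conductor in `Raising/Conclude`
  (`Level/Main`).

Some statements are read off this route: `S04`, `S06`, `S59` and `S60` from the squarefree
residual level at 3 and the lifting; `S45` adds level lowering, `S03` that and `S09`.

Not on this route: `Pic`, `AV` (except `AV/SpanPow`), `ExtVan`, `WeightOneGalois`,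
`WeightOneLift`, `Depletion` (they prove `S25`, `S26`, `S14`, `S48`, `S47`, `S46`), and a few
modules of other directories which serve only their own statement (`S16`, `S28`, `S38`, `S41`,
`S42`, `S46`, `S53`, `S55`, `S57`).

## Modular curves, forms and Jacobians

* `Grp`: the modular group and `Γ₀(N)`.
* `FF`: function fields, Riemann–Roch, differentials.
* `MF`, `X0`, `Periods`: forms of weight two, the curve `X₀(N)` over `ℂ`, periods
  (`S20` to `S24`).
* `Tors`: torsion of the divisor class group in characteristic zero (`S27`).
* `Igusa`: the model of `X₀(N)` and its fibres (`S28`).
* `Red`, `Flat`: reduction of `J₀(N)` and finite flat models of its torsion (`S18`, `S19`).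
* `MW`: Mordell–Weil for `J₀(N)` (`S17`).
* `Mono`, `Hecke`, `EichlerShimura`: monodromy, Hecke correspondences, the congruence relation
  (`S37`).
* `Pic`: Jacobians of curves (`S25`); `AV`: torsion of abelian schemes (`S26`).

## Galois representations of eigenforms

* `Gal`: Frobenius elements, density, comparison of representations.
* `Attach`: attached representations (`S29` to `S31`, `S42`) and the map to the Hecke ring (`S54`);
  `S32` comes from `Flat`.
* `TwoComponent`, `EigenTwist`: local behaviour at primes dividing the level once, and at auxiliary
  primes (`S33` to `S35`).
* `SquareLevel`: non-unipotent inertia at squares in the level (`S36`).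
* `Level`: the level of a semistable curve (`S58`).

## Elliptic curves and Mazur's theorem for the Frey curve

* `EC`, `Tate`, `Frey`, `Basic`: torsion, reduction, the Frey model (`S02`, `S05`, `S07`, `S08`,
  `S13`).
* `SmallExponents`, `ExponentEleven`: the exponents 5, 7, 11, 13 (`S10`, `S11`).
* `Eis`: the Eisenstein ideal and lifting of eigensystems (`S16`, `S49`).
* `ExtVan`: vanishing of extensions (`S14`).
* `Mazur`: formal immersion and the rank zero quotient (`S12`, `S15`).
* `LevelFifteen`, `Switch`: irreducibility at 3 or 5, the switch.

## Residual modularity

* `ResidualThree`: Langlands–Tunnell at 3 (`S50`); `WeightOneLift`: the form for a surjective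
  representation (`S47`); `Depletion`: the eigensystem of `S46`, from modularity of the curve.
* `WeightOneGalois`: Deligne–Serre (`S48`).
* `RemoveThree`: powers of three in residual levels.

## Lowering, raising and lifting

* `CFT`, `PT`: class field theory and Poitou–Tate duality (`S55`).
* `TW`: Selmer groups and Taylor–Wiles primes (`S56`).
* `Deform`, `Patching`: deformation rings and patching (`S53`, `S57`).
* `Ihara`: Ihara's lemma and level raising (`S41`).
* `LoweringAtP`: Mazur's principle at `p` (`S39`, `S40`, `S44`).
* `LevelLowering`: Taylor–Wiles levels and lowering away from `p` (`S38`, `S43`).
* `Raising`: raising and lifting (`S59`).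
-/
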