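import Fermat.Statements.S03
import Fermat.Agent.Glue.Squarefree
import Fermat.Agent.Raising.Lifting.Final
import Fermat.Agent.ResidualThree.SquarefreeLevel.Main
import Fermat.Agent.S09
import Fermat.Agent.S43
import Fermat.Agent.S44

/-! # S03: no Frey package exists -/

open FreyPackage

namespace Fermat.Agent.S03

theorem result (P : FreyPackage) : False := by
  exact Fermat.Agent.Glue.noFrey_of_squarefree
    Fermat.Agent.ResidualThree.SquarefreeLevel.residualThreeSquarefree
    Fermat.Agent.Raising.Lifting.liftingSquarefree
    (fun Q => Fermat.Agent.S09.result Q)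
    (fun Q _ _ hcond hq hq2 hqp hqN hirr hmod hunr =>
      Fermat.Agent.S43.result Q hcond hq hq2 hqp hqN hirr hmod hunr)
    (fun Q _ hcond hpN hirr hmod => Fermat.Agent.S44.result Q hcond hpN hirr hmod) P

end Fermat.Agent.S03
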