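import Fermat.Statements.S06
import Fermat.Agent.Glue.Squarefree
import Fermat.Agent.Raising.Lifting.Final
import Fermat.Agent.ResidualThree.SquarefreeLevel.Main

/-! # S06: the mod `p` representation of the Frey curve is modular of a conductor level -/

open WeierstrassCurve WeierstrassCurve.Affine WeierstrassCurve.Affine.Point
open CuspForm ModularFormClass UpperHalfPlane
open FreyPackage

namespace Fermat.Agent.S06

theorem result (P : FreyPackage) : ∃ N : ℕ, P.IsConductorLevel N ∧ P.ModularRepOfLevel N := by
  exact Fermat.Agent.Glue.freyModularRep_of_squarefree
    Fermat.Agent.ResidualThree.SquarefreeLevel.residualThreeSquarefree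
    Fermat.Agent.Raising.Lifting.liftingSquarefree P

end Fermat.Agent.S06
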