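import Fermat.Statements.S13
import Fermat.Agent.Frey.Global
import Fermat.Agent.Frey.NoTorsion

/-! # S13: a reducible Frey representation has a cofixed line -/

open WeierstrassCurve WeierstrassCurve.Affine WeierstrassCurve.Affine.Point
open CuspForm ModularFormClass UpperHalfPlane
open FreyPackage

namespace Fermat.Agent.S13

theorem result (P : FreyPackage) (hred : ¬ GaloisRepIsIrreducible (K := AlgebraicClosure ℚ) ℚ P.freyCurve P.p) : HasGaloisStableCofixedLine (K := AlgebraicClosure ℚ) ℚ P.freyCurve P.p := by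
  have : Fact P.p.Prime := ⟨P.pp⟩
  have hΔ := Frey.freyCurveInt_Δ_ne_zero P
  have hss := Frey.freyCurveInt_isSemistable P
  have hp2 : P.p ≠ 2 := by have := P.hp5; omega
  rw [Frey.freyCurve_eq_map] at hred ⊢
  have hfr := Frey.finrank_tors (p := P.p) hΔ
  have hnt : Nontrivial (Frey.Tors P.freyCurveInt P.p) :=
    Module.nontrivial_of_finrank_pos (R := ZMod P.p) (by rw [hfr]; norm_num)
  obtain ⟨N, hst, hbot, htop⟩ : ∃ N : Submodule (ZMod P.p) (Frey.Tors P.freyCurveInt P.p),
      IsGaloisStable ℚ N ∧ N ≠ ⊥ ∧ N ≠ ⊤ := by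
    by_contra hno
    refine hred ⟨hnt, fun N hN => ?_⟩
    by_contra hne
    exact hno ⟨N, hN, fun e => hne (Or.inl e), fun e => hne (Or.inr e)⟩
  rcases Frey.line_fixed_or_cofixed hΔ hss hp2 hst hbot htop with h | h
  · exfalso
    obtain ⟨z, hz, hz0⟩ := Submodule.exists_mem_ne_zero_of_ne_bot hbot
    exact hz0 (Frey.frey_fixed_tors_eq_zero P z fun σ => h σ z hz)
  · exact ⟨N, hst, hbot, htop, h⟩

end Fermat.Agent.S13
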