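import Fermat.Statements.S14
import Fermat.Agent.ExtVan.Splitting

/-! # S14: vanishing of extensions of `μ_p` by `ℤ/p` over `Spec ℤ` for primes `p ≥ 3` -/

open ExtCitation

namespace Fermat.Agent.S14

theorem result {p : ℕ} [Fact p.Prime] (h3 : 3 ≤ p) :
    ExtCitation.ExtVanishingCts p := by
  exact Fermat.Agent.ExtVan.extVanishingCts h3

end Fermat.Agent.S14
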