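import Fermat.Statements.S15
import Fermat.Agent.Mazur.Assemble
import Fermat.Agent.Mazur.Immersion.Main

/-! # S15: Mazur's step on rational torsion points and components at multiplicative primes -/

open WeierstrassCurve WeierstrassCurve.Affine
open WeierstrassCurve

namespace Fermat.Agent.S15

theorem result
    {p : ℕ} (hp : p.Prime) (hp' : p ∉ ({2, 3, 5, 7, 13} : Finset ℕ))
    (W : WeierstrassCurve ℤ) (hΔ : W.Δ ≠ 0)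
    (Q : ((W.map (Int.castRingHom ℚ))⁄(AlgebraicClosure ℚ)).Point)
    (hQfix : ∀ σ : AlgebraicClosure ℚ ≃ₐ[ℚ] AlgebraicClosure ℚ, σ • Q = Q)
    (hQord : addOrderOf Q = p)
    (h2Δ : (2 : ℤ) ∣ W.Δ) (h2c₄ : ¬ (2 : ℤ) ∣ W.c₄)
    (h2 : ∀ A : ValuationSubring (AlgebraicClosure ℚ), A.LiesOverPrime 2 → ¬ W.InZeroComponentAt A Q)
    (h3Δ : (3 : ℤ) ∣ W.Δ) (h3c₄ : ¬ (3 : ℤ) ∣ W.c₄)
    (h3 : ∀ A : ValuationSubring (AlgebraicClosure ℚ), A.LiesOverPrime 3 → ¬ W.InZeroComponentAt A Q)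
    {ℓ : ℕ} (hℓ : ℓ.Prime) (hℓp : ℓ ≠ p) (hℓΔ : (ℓ : ℤ) ∣ W.Δ) (hℓc₄ : ¬ (ℓ : ℤ) ∣ W.c₄)
    (A : ValuationSubring (AlgebraicClosure ℚ)) (hA : A.LiesOverPrime ℓ) :
    ¬ W.InZeroComponentAt A Q := by
  have : NeZero p := ⟨hp.ne_zero⟩
  obtain ⟨h11, h13⟩ := Fermat.Agent.Mazur.eleven_le_of_not_mem hp hp'
  exact (Fermat.Agent.Mazur.not_inZeroComponentAt_of hp
    (Fermat.Agent.Mazur.noCuspDiscLine_of_formalImmersion hp h11 h13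
      (@Fermat.Agent.Mazur.Immersion.formalImmersion p ⟨hp⟩ (by omega)))
    W hΔ Q hQfix hQord h2Δ h2c₄ h2 h3Δ h3c₄ h3).elim

end Fermat.Agent.S15
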