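import Fermat.Statements.S16
import Fermat.Agent.Eis.Lower
import Fermat.Agent.Eis.Upper

/-! # S16: the index of the Eisenstein ideal at prime level is `(p - 1) / gcd (p - 1) 12` -/

open ModularCurve CuspForm
open ModularCurve

namespace Fermat.Agent.S16

theorem result
    (p : ℕ) [Fact p.Prime] :
    Nat.card (↥(heckeLatticeAlgebra p ∅) ⧸
        Ideal.map ((latticeRestrictHom p ∅).toRingHom.comp (heckeEvalForms p 2))
          (eisensteinIdeal p)) =
      eisensteinNumerator p := by
  exact Fermat.Agent.Eis.card_quotient_eq p Fermat.Agent.Eis.eisCong_eisensteinNumerator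
    fun _ h => Fermat.Agent.Eis.eisensteinNumerator_dvd_of_eisCong h

end Fermat.Agent.S16
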