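import Fermat.Statements.S20
import Fermat.Agent.Periods.Glue
import Fermat.Agent.X0.CuspDim

/-! # S20: the dimension of weight two cusp forms is the genus of `X₀(N)` -/

open CuspForm

namespace Fermat.Agent.S20

theorem result (N : ℕ) [NeZero N] :
    (Module.finrank ℂ (CuspForm (CongruenceSubgroup.Gamma0 N) 2) : ℚ) = ModularCurve.genusFormula N :=
  Fermat.Agent.Periods.finrank_eq_genusFormula_of_le N (Fermat.Agent.X0.genusFormula_le_finrank N)

end Fermat.Agent.S20
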