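import Fermat.Statements.S25
import Fermat.Agent.Pic.Chart.Glue
import Fermat.Agent.Pic.Chart.Instance
import Fermat.Agent.Pic.Curve.HasPoints
import Fermat.Agent.Pic.Main
import Fermat.Agent.Pic.Power.PairMap

/-! # S25: existence of the Jacobian of a smooth proper curve with a point -/

universe u
open CategoryTheory CategoryTheory.Limits AlgebraicGeometry AlgebraicGeometry.RelPicard NeronModelInfra
  GoodReductionJacobian
open AlgebraicGeometry AlgebraicGeometry.RelPicard
open Fermat.Agent.Pic

namespace Fermat.Agent.S25

theorem result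
    (k : Type u) [Field k] [IsAlgClosed k] {C : Scheme.{u}} (c : C ⟶ Spec (CommRingCat.of k))
    [IsProper c] [SmoothOfRelativeDimension 1 c] [IsIntegral C]
    (ε : SchemeHomOver (𝟙 (Spec (CommRingCat.of k))) c) :
    ∃ D : RelativePic0Designation k c,
      Nonempty (RepresentsRelSubPic c ε (algEquivZeroCut c ε) D) ∧
        Smooth D.toBase ∧ IsProper D.toBase ∧ GeometricallyConnected D.toBase := by
  obtain ⟨e, -⟩ := exists_place_notMem c ∅
  obtain ⟨p, -⟩ := exists_parameter c e
  exact p.exists_jacobian (p.glueCharts (Chart.datumCharts p.cover) ε)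
    (p.smooth_glueCharts (Chart.datumCharts p.cover) ε) fun D h => by
    obtain ⟨π, hπ⟩ := p.exists_pairMap h
    exact ⟨_, π, p.exists_lift_point h π (hπ k)⟩

end Fermat.Agent.S25
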