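import Fermat.Statements.S33
import Fermat.Agent.Attach.Inputs
import Fermat.Agent.SquareLevel.GluePush
import Fermat.Agent.TwoComponent.Ordinary.Geo
import Fermat.Agent.TwoComponent.Ordinary.Main

/-! # S33: Hecke–Galois data are ordinary at `p ∥ N` -/

variable {p : ℕ} {N : ℕ} [NeZero N] {S : Finset ℕ}
  {𝒪 : Type} [CommRing 𝒪] [IsDomain 𝒪] [IsDiscreteValuationRing 𝒪]
  [IsAdicComplete (IsLocalRing.maximalIdeal 𝒪) 𝒪]
  {θ : CuspForm.heckeAlgebra N 2 (↑S : Set ℕ) →+* IsLocalRing.ResidueField 𝒪}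
  {T : Type} [CommRing T] [IsLocalRing T] [IsNoetherianRing T]
  [IsAdicComplete (IsLocalRing.maximalIdeal T) T] [Algebra 𝒪 T] [IsLocalHom (algebraMap 𝒪 T)]
  [Module.Finite 𝒪 T] [Module.Free 𝒪 T]
open CuspForm CuspForm.HeckeGaloisRepDatum

namespace Fermat.Agent.S33

theorem result
    [Finite (IsLocalRing.ResidueField 𝒪)] [CharZero 𝒪]
    (hp : p.Prime) (hp2 : p ≠ 2) (hp𝒪 : (p : 𝒪) ∈ IsLocalRing.maximalIdeal 𝒪) (hN : p ∣ N ∧ ¬ p ^ 2 ∣ N)
    (hNS : ∀ q : ℕ, q.Prime → q ∣ N → q ∈ S)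
    (H : CuspForm.HeckeGaloisRepDatum N (↑S : Set ℕ) 𝒪 θ T)
    (hres : (GaloisRepAdic.ofResidualGaloisRep H.ρ.residual).IsOrdinaryAt p) :
    H.ρ.IsOrdinaryAt p := by
  have : Fact p.Prime := ⟨hp⟩
  have : NeZero p := ⟨hp.ne_zero⟩
  obtain ⟨⟨M, hM⟩, hN2⟩ := hN
  rw [mul_comm] at hM
  subst hM
  have : NeZero M := ⟨fun h => NeZero.ne (M * p) (by rw [h, zero_mul])⟩
  have hpM : ¬ p ∣ M := fun h => hN2 (by rw [sq]; exact Nat.mul_dvd_mul h dvd_rfl)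
  exact Fermat.Agent.TwoComponent.Ordinary.isOrdinaryAt_of_parts hp2 hp𝒪
    (hNS p hp (dvd_mul_left p M)) hNS (Fermat.Agent.Attach.nonempty_jacobianInputs (M * p) p).some
    (Fermat.Agent.SquareLevel.pushAlpha M p) (Fermat.Agent.SquareLevel.pushBeta M p)
    (Fermat.Agent.SquareLevel.pushAlpha_smul M p) (Fermat.Agent.SquareLevel.pushBeta_smul M p)
    (fun A hA => Fermat.Agent.TwoComponent.Ordinary.hasConnectedPart M p hp2 hpM hA)
    (fun A hA => Fermat.Agent.TwoComponent.Ordinary.hasToricPart M p hpM hA) H hres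

end Fermat.Agent.S33
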