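import Fermat.Statements.S34
import Fermat.Agent.Attach.Inputs
import Fermat.Agent.Attach.UnipotentAt
import Fermat.Agent.TwoComponent.Unipotent

/-! # S34: Hecke–Galois data are unipotent on inertia at `q ∥ N`, `q ≠ p` -/

open IsLocalRing
open CuspForm CuspForm.HeckeGaloisRepDatum

namespace Fermat.Agent.S34

theorem result
    {𝒪 : Type} [CommRing 𝒪] [IsDomain 𝒪] [IsDiscreteValuationRing 𝒪]
    [IsAdicComplete (maximalIdeal 𝒪) 𝒪] [Finite (ResidueField 𝒪)] [CharZero 𝒪]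
    {p : ℕ} (hp : p.Prime) (hp𝒪 : (p : 𝒪) ∈ maximalIdeal 𝒪)
    {N : ℕ} [NeZero N] {S : Finset ℕ} (hpS : p ∈ S) (hNS : ∀ q : ℕ, q.Prime → q ∣ N → q ∈ S)
    {θ : CuspForm.heckeAlgebra N 2 (↑S : Set ℕ) →+* ResidueField 𝒪}
    {T : Type} [CommRing T] [IsLocalRing T] [IsNoetherianRing T]
    [IsAdicComplete (maximalIdeal T) T] [Algebra 𝒪 T] [IsLocalHom (algebraMap 𝒪 T)]
    [Module.Finite 𝒪 T] [Module.Free 𝒪 T]
    (H : CuspForm.HeckeGaloisRepDatum N (↑S : Set ℕ) 𝒪 θ T)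
    (q : ℕ) (hq : q.Prime) (hqp : q ≠ p) (hqN : q ∣ N) (hq2 : ¬ q ^ 2 ∣ N) :
    H.ρ.IsUnipotentOnInertiaAt q := by
  have : Fact p.Prime := ⟨hp⟩
  refine Fermat.Agent.Attach.isUnipotentOnInertiaAt_of_inputs
    (Fermat.Agent.Attach.nonempty_jacobianInputs N p).some hp hp𝒪 hpS hNS
    (Fermat.Agent.Attach.HeckeRep.ofDatum H) q hq hqp
    fun P hP σ hσ n y hy => ?_
  exact Fermat.Agent.TwoComponent.inertia_smul_sub N q hq hqN hq2 hP hσ hσ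
    (fun h => hqp ((Nat.prime_dvd_prime_iff_eq hq hp).mp (hq.dvd_of_dvd_pow h))) hy

end Fermat.Agent.S34
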