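import Fermat.Statements.S38
import Fermat.Agent.LevelLowering.Semistable.Lowering
import Fermat.Agent.LevelLowering.Semistable.Statement

/-! # S38: Ribet: level lowering at an unramified prime `q ≠ p` for semistable curves -/

open WeierstrassCurve WeierstrassCurve.Affine WeierstrassCurve.Affine.Point
open WeierstrassCurve

namespace Fermat.Agent.S38

theorem result
    (p : ℕ) [Fact p.Prime] (_hp2 : p ≠ 2) (W : WeierstrassCurve ℤ) (_hΔ : W.Δ ≠ 0)
    (_hW : W.IsSemistableModel)
    (hcard₁ : Nat.card (Submodule.torsionBy ℤ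
      ((W.map (Int.castRingHom ℚ))⁄(AlgebraicClosure ℚ)).Point p) = p ^ 2)
    (hker : GaloisFactorsThroughFiniteLevel
      (WeierstrassCurve.Affine.Point.galoisRepModuleEnd (K := AlgebraicClosure ℚ) ℚ
        (W.map (Int.castRingHom ℚ)) p))
    (_hirr : W.ModRepIsIrreducible p) (M q : ℕ) (hq : q.Prime) (hqp : q ≠ p)
    (hqM : q ∣ M) (hq2 : ¬ q ^ 2 ∣ M) (hM : Squarefree M)
    (hunr : ((W.map (Int.castRingHom ℚ)).residualGaloisRepOf p hcard₁ hker).IsUnramifiedAt q)
    (hres : W.IsResiduallyModularOfLevel p M) :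
    W.IsResiduallyModularOfLevel p (M / q) := by
  exact Fermat.Agent.LevelLowering.Semistable.lowering_unramified_of_supply p _hp2 W _hΔ _hW hcard₁
    hker _hirr M q hq hqp hqM hq2
    hM hunr hres
    (fun C K _ _ _ _ _ hinj =>
      Fermat.Agent.LevelLowering.Semistable.levelSupply (C := C) _hp2 _hΔ _hW _hirr K hinj)
    (fun C => Fermat.Agent.LevelLowering.Semistable.scalarExact C _hp2 _hΔ _hirr)

end Fermat.Agent.S38
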