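import Fermat.Statements.S40
import Fermat.Agent.LoweringAtP.Three.Main

/-! # S40: level lowering at `p` for good reduction -/

open WeierstrassCurve

namespace Fermat.Agent.S40

theorem result
    (W : WeierstrassCurve ℤ) (hΔ : W.Δ ≠ 0)
    {p : ℕ} (hp : p.Prime) (hp2 : p ≠ 2)
    (hgood : W.IsGoodPrimeFor p)
    (hirr : W.ModRepIsIrreducible p)
    {M : ℕ} (hM : 0 < M) (hpM : p ∣ M) (hp2M : ¬ p ^ 2 ∣ M)
    (hmod : W.IsResiduallyModularOfLevel p M) :
    W.IsResiduallyModularOfLevel p (M / p) := by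
  have : Fact p.Prime := ⟨hp⟩
  exact Fermat.Agent.LoweringAtP.Three.lowering_at_odd hp2 hΔ (fun h => absurd h hgood)
    (Fermat.Agent.LoweringAtP.Three.isPeuRamifieeAt_of_good hgood) hirr hM hpM hp2M hmod

end Fermat.Agent.S40
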