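import Fermat.Statements.S41
import Fermat.Agent.Ihara.Raise
import Fermat.Agent.Ihara.TraceMain

/-! # S41: level raising at an auxiliary prime -/

open WeierstrassCurve WeierstrassCurve.Affine WeierstrassCurve.Affine.Point
open scoped CongruenceSubgroup
open WeierstrassCurve

namespace Fermat.Agent.S41

theorem result
    (E : WeierstrassCurve ℚ) [E.IsElliptic] {W : WeierstrassCurve ℤ} (hW : W.IsIntegralModelOf E)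
    {p N q' : ℕ} (hp : p.Prime) (hp2 : p ≠ 2) (hN : 0 < N) (hq' : q'.Prime) (hq'N : ¬ q' ∣ N) (hq'p : q' ≠ p)
    (hirr : GaloisRepIsIrreducible (K := AlgebraicClosure ℚ) ℚ E p)
    (f : CuspForm (CongruenceSubgroup.Gamma0 N) 2) (𝔪 : Ideal (integralClosure ℤ ℂ))
    (hf : f.IsNormalizedEigenform) (hmax : 𝔪.IsMaximal) (hpm : (p : integralClosure ℤ ℂ) ∈ 𝔪)
    (hcong : ∀ ℓ : ℕ, ℓ.Prime → W.IsGoodPrimeFor ℓ → ¬ ℓ ∣ N → ℓ ≠ p →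
      ∃ a : integralClosure ℤ ℂ, (a : ℂ) = ModularFormClass.qCoeff f ℓ ∧
        a - ((W.apOfModel ℓ : ℤ) : integralClosure ℤ ℂ) ∈ 𝔪)
    (hLR : ∃ a : integralClosure ℤ ℂ, (a : ℂ) = ModularFormClass.qCoeff f q' ∧
      a ^ 2 - ((q' : integralClosure ℤ ℂ) + 1) ^ 2 ∈ 𝔪) :
    ∃ (g : CuspForm (CongruenceSubgroup.Gamma0 (N * q')) 2) (𝔪' : Ideal (integralClosure ℤ ℂ)),
      g.IsNormalizedEigenform ∧ 𝔪'.IsMaximal ∧ (p : integralClosure ℤ ℂ) ∈ 𝔪' ∧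
      (∀ ℓ : ℕ, ℓ.Prime → W.IsGoodPrimeFor ℓ → ¬ ℓ ∣ N * q' → ℓ ≠ p →
        ∃ a : integralClosure ℤ ℂ, (a : ℂ) = ModularFormClass.qCoeff g ℓ ∧
          a - ((W.apOfModel ℓ : ℤ) : integralClosure ℤ ℂ) ∈ 𝔪') ∧
      g.IsNewAt q' := by
  have : Fact p.Prime := ⟨hp⟩
  have : NeZero N := ⟨hN.ne'⟩
  have : NeZero q' := ⟨hq'.ne_zero⟩
  have := hmax
  let S : Set ℕ := {ℓ | ℓ.Prime ∧ W.IsGoodPrimeFor ℓ ∧ ¬ ℓ ∣ N * q' ∧ ℓ ≠ p}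
  obtain ⟨ℓ, hℓ, hBℓ, hℓp, hgood, h1, h2⟩ :=
    Fermat.Agent.Ihara.exists_prime_trace_ne E hW hp hp2 hirr (q' ^ (4 * N ^ 2) + N * q')
  have hexp : ¬ (ℓ : ℤ) ∣ (q' : ℤ) ^ (4 * N ^ 2) - 1 := by
    intro hd
    have h1le : 1 ≤ q' ^ (4 * N ^ 2) := Nat.one_le_pow _ _ hq'.pos
    have hgt : 1 < q' ^ (4 * N ^ 2) := Nat.one_lt_pow (by positivity) hq'.one_lt
    rw [← Nat.cast_pow, ← Nat.cast_one, ← Nat.cast_sub h1le, Int.natCast_dvd_natCast] at hd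
    have := Nat.le_of_dvd (by omega) hd
    omega
  have hℓS : ℓ ∈ S := by
    refine ⟨hℓ, hgood, fun hd => ?_, hℓp⟩
    have := Nat.le_of_dvd (Nat.mul_pos hN hq'.pos) hd
    omega
  obtain ⟨g, Q, hg, hQ, hpQ, hgc, hgq⟩ :=
    Fermat.Agent.Ihara.exists_levelRaised (p := p) hp hq' hq'N S
    (fun m hm => ⟨hm.1, fun h => hm.2.2.1 (dvd_mul_of_dvd_left h q'),
      fun h => hm.2.2.1 (dvd_mul_of_dvd_right h N)⟩) W.apOfModel ⟨ℓ, hℓS, hexp, h1, h2⟩ hf 𝔪 hpm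
    (fun m hm => hcong m hm.1 hm.2.1 (fun h => hm.2.2.1 (dvd_mul_of_dvd_left h q')) hm.2.2.2) hLR
  exact ⟨g, Q, hg, hQ, hpQ, fun m hm h1 h2 h3 => hgc m ⟨hm, h1, h2, h3⟩, hgq⟩

end Fermat.Agent.S41
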