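import Fermat.Statements.S42
import Fermat.Agent.Attach.FreyAttach
import Fermat.Agent.Attach.Inputs

/-! # S42: residual representations attached to eigenforms, for the prime of a Frey package -/

open FreyPackage

namespace Fermat.Agent.S42

theorem result (P : FreyPackage) :
    ∀ M : ℕ, 0 < M → P.EigenformResidualAttachmentAt M := by
  intro M hM
  have : NeZero M := ⟨hM.ne'⟩
  have : Fact P.p.Prime := ⟨P.pp⟩
  exact Fermat.Agent.Attach.eigenformResidualAttachment_of_inputs P M
    (Fermat.Agent.Attach.nonempty_jacobianInputs M P.p).some

end Fermat.Agent.S42
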