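import Fermat.Statements.S45
import Fermat.Agent.Glue.Squarefree
import Fermat.Agent.Raising.Lifting.Final
import Fermat.Agent.ResidualThree.SquarefreeLevel.Main
import Fermat.Agent.S43
import Fermat.Agent.S44

/-! # S45: a nonzero weight two form of level two from a modular irreducible Frey curve -/

open WeierstrassCurve WeierstrassCurve.Affine WeierstrassCurve.Affine.Point
open CuspForm ModularFormClass UpperHalfPlane
open FreyPackage

namespace Fermat.Agent.S45

theorem result (P : FreyPackage) (hmod : P.freyCurve.IsModular) (hirr : GaloisRepIsIrreducible (K := AlgebraicClosure ℚ) ℚ P.freyCurve P.p) : ∃ f : CuspForm (CongruenceSubgroup.Gamma0 2) 2, f ≠ 0 := by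
  exact Fermat.Agent.Glue.exists_form_two_of_squarefree
    Fermat.Agent.ResidualThree.SquarefreeLevel.residualThreeSquarefree
    Fermat.Agent.Raising.Lifting.liftingSquarefree
    (fun Q _ _ hcond hq hq2 hqp hqN hirr hmod hunr =>
      Fermat.Agent.S43.result Q hcond hq hq2 hqp hqN hirr hmod hunr)
    (fun Q _ hcond hpN hirr hmod => Fermat.Agent.S44.result Q hcond hpN hirr hmod) P hirr

end Fermat.Agent.S45
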