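import Fermat.Statements.S46
import Fermat.Agent.Depletion.Main
import Fermat.Agent.Glue.Squarefree
import Fermat.Agent.MF.IntegralBasisTwo
import Fermat.Agent.Raising.Lifting.Final
import Fermat.Agent.ResidualThree.SquarefreeLevel.Main

/-! # S46: Langlands–Tunnell as an integral eigensystem congruent to the curve mod 3 -/

open WeierstrassCurve CuspForm EisensteinWeightOne FormalHecke
open FLT FLT.No2BridgeWiring

namespace Fermat.Agent.S46

theorem result :
    ∀ W : WeierstrassCurve ℤ, W.Δ ≠ 0 → W.IsSemistableModel → W.ModRepIsIrreducible 3 →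
      ∃ (N : ℕ) (_ : NeZero N) (a : ℕ → ℤ),
        CuspForm.HasIntegralBasis N ∧
        FormalHecke.IsEigensystem
          (fun ℓ => if ℓ ∣ N then 0 else ((chiNegThree ℓ : ℤ) : ℤ)) a ∧
        CuspForm.IsLatticeRealized N a ∧
        (∀ q : ℕ, q.Prime → q ≠ 3 → ¬ q ^ 3 ∣ N) ∧
        ∀ ℓ : ℕ, ℓ.Prime → W.IsGoodPrimeFor ℓ → ¬ ℓ ∣ N → ℓ ≠ 3 →
          (3 : ℤ) ∣ (a ℓ - W.apOfModel ℓ) := by
  intro W hΔ hW _
  obtain ⟨M, hMpos, hMsq, hMbad, f, hf, hfW⟩ :=
    Fermat.Agent.Glue.exactConductor_squarefree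
      Fermat.Agent.ResidualThree.SquarefreeLevel.residualThreeSquarefree
      Fermat.Agent.Raising.Lifting.liftingSquarefree W hΔ hW
  have : NeZero M := ⟨hMpos.ne'⟩
  have : NeZero (M * M) := ⟨mul_ne_zero hMpos.ne' hMpos.ne'⟩
  obtain ⟨a, ha, hreal, hap⟩ := Fermat.Agent.Depletion.exists_realized hMsq hf
    (fun ℓ => W.apOfModel ℓ) (fun p hp hpM => hfW p hp (fun h => hpM ((hMbad p hp).mpr h)) hpM)
  refine ⟨M * M, inferInstance, a, Fermat.Agent.MF.hasIntegralBasis (M * M), ha, hreal,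
    fun q hq _ hdvd => ?_, fun ℓ hℓ _ hℓN _ => ?_⟩
  · have h1 : ¬ q ^ 2 ∣ M := fun h => by
      have := hMsq q (by rwa [pow_two] at h)
      exact hq.ne_one (Nat.isUnit_iff.mp this)
    have hne : M ≠ 0 := hMpos.ne'
    rw [hq.pow_dvd_iff_le_factorization (mul_ne_zero hne hne), Nat.factorization_mul hne hne,
      Finsupp.add_apply] at hdvd
    rw [hq.pow_dvd_iff_le_factorization hne] at h1
    omega
  · rw [hap ℓ hℓ fun h => hℓN (h.mul_right M), sub_self]
    exact dvd_zero 3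

end Fermat.Agent.S46
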