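import Fermat.Statements.S49
import Fermat.Agent.Eis.CongruentClass
import Fermat.Agent.Eis.EigenLift

/-! # S49: lifting a lattice-realised eigensystem to an eigenform congruent mod 3 -/

open CuspForm EisensteinWeightOne CongruenceSubgroup ModularFormClass
open FLT FLT.AbstractIntegralStructure

namespace Fermat.Agent.S49

theorem chiNegThree_dvd_sub (ℓ : ℕ) : (3 : ℤ) ∣ chiNegThree ℓ - ℓ := by
  unfold chiNegThree
  split_ifs <;> omega

theorem bridgeProduct_coeff_dvd_sub (a : ℕ → ℤ) (n : ℕ) :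
    (3 : ℤ) ∣ (bridgeProduct a).coeff n - a n := by
  have h0 : PowerSeries.map (Int.castRingHom (ZMod 3)) e1Chi3 = 1 := by
    ext k
    rw [PowerSeries.coeff_map, e1Chi3, PowerSeries.coeff_mk, PowerSeries.coeff_one]
    split_ifs
    · simp
    · have h6 : (6 : ZMod 3) = 0 := rfl
      simp [h6]
  have h1 : PowerSeries.map (Int.castRingHom (ZMod 3)) (bridgeProduct a) =
      PowerSeries.map (Int.castRingHom (ZMod 3)) (PowerSeries.mk a) := by
    rw [bridgeProduct, e1Chi3In, map_mul, Int.castRingHom_int, PowerSeries.map_id, id_eq,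
      h0, mul_one]
  have h2 := congrArg (PowerSeries.coeff n) h1
  rw [PowerSeries.coeff_map, PowerSeries.coeff_map, PowerSeries.coeff_mk] at h2
  simp only [Int.coe_castRingHom] at h2
  exact (ZMod.intCast_eq_intCast_iff_dvd_sub _ _ 3).mp h2.symm

theorem result
    {N : ℕ} [NeZero N] (h : CuspForm.HasIntegralBasis N) {a : ℕ → ℤ}
    (heig : FormalHecke.IsEigensystem
      (fun ℓ => if ℓ ∣ N then 0 else ((chiNegThree ℓ : ℤ) : ℤ)) a)
    (hreal : CuspForm.IsLatticeRealized N a) :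
    ∃ (f : CuspForm (Gamma0 N) 2) (_ : f.IsNormalizedEigenform)
      (𝔪' : Ideal (integralClosure ℤ ℂ)), 𝔪'.IsMaximal ∧
      ((3 : ℕ) : integralClosure ℤ ℂ) ∈ 𝔪' ∧
      ∀ (ℓ : ℕ) (_ : ℓ.Prime) (_ : ¬ ℓ ∣ N),
        ∃ c : integralClosure ℤ ℂ, (c : ℂ) = ModularFormClass.qCoeff f ℓ ∧
          c - (a ℓ : integralClosure ℤ ℂ) ∈ 𝔪' := by
  have hint : HasIntegralStructure N 2 := by
    refine eq_top_iff.mpr (le_trans (ge_of_eq h) (Submodule.span_le.mpr fun f hf => ?_))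
    refine Submodule.subset_span ((Eis.mem_intLattice_iff f).mpr fun n => ?_)
    obtain ⟨m, hm⟩ := Subring.mem_bot.mp (hf n)
    exact ⟨m, hm.symm⟩
  have := Eis.moduleFinite_heckeAlgebra hint
  obtain ⟨f, -, af, haf, hcong⟩ := hreal
  have hfa : ∀ n, (3 : ℤ) ∣ af n - a n := fun n => by
    have := dvd_add (hcong n) (bridgeProduct_coeff_dvd_sub a n)
    rwa [sub_add_sub_cancel] at this
  have hfmem : f ∈ intLattice N 2 :=
    (Eis.mem_intLattice_iff f).mpr fun n => ⟨af n, (haf n).symm⟩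
  have hf1 : ¬ ((3 : ℕ) : ℤ) ∣ af 1 := by
    have := hfa 1
    rw [heig.1] at this
    push_cast
    omega
  have toZ : ∀ n, (af n : ZMod 3) = (a n : ZMod 3) := fun n =>
    ((ZMod.intCast_eq_intCast_iff_dvd_sub _ _ 3).mpr (hfa n)).symm
  have hgen : ∀ ℓ : Nat.Primes, Eis.CoeffModEq ((3 : ℕ) : ℤ)
      ((heckeFormsGen N 2 ℓ : Module.End ℂ _) f) ((a ℓ : ℂ) • f) := by
    rintro ⟨ℓ, hℓ⟩ n
    have heq := congrArg (Int.cast (R := ZMod 3)) (heig.2 ℓ hℓ n)
    by_cases hN : ℓ ∣ N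
    · simp only [if_pos hN, zero_mul, add_zero, Int.cast_mul] at heq
      have h3 : ((3 : ℕ) : ℤ) ∣ af (ℓ * n) - a ℓ * af n := by
        rw [← ZMod.intCast_zmod_eq_zero_iff_dvd]
        push_cast
        rw [toZ, toZ, heq, sub_self]
      obtain ⟨z, hz⟩ := h3
      refine ⟨z, ?_⟩
      rw [Eis.qCoeff_smul, heckeFormsGen_of_dvd (q := ⟨ℓ, hℓ⟩) hN, heckeAlgebra.coe_U,
        Eis.qCoeff_heckeULin hℓ hN, ← haf, ← haf, ← hz]
      push_cast
      rfl
    · have hchi : (chiNegThree ℓ : ZMod 3) = ((ℓ : ℤ) : ZMod 3) :=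
        ((ZMod.intCast_eq_intCast_iff_dvd_sub _ _ 3).mpr (chiNegThree_dvd_sub ℓ)).symm
      simp only [if_neg hN, Int.cast_add, Int.cast_mul] at heq
      have h3 : ((3 : ℕ) : ℤ) ∣
          af (ℓ * n) + ℓ * (if ℓ ∣ n then af (n / ℓ) else 0) - a ℓ * af n := by
        rw [← ZMod.intCast_zmod_eq_zero_iff_dvd]
        by_cases hd : ℓ ∣ n
        · simp only [if_pos hd, hchi] at heq
          simp only [if_pos hd, Int.cast_sub, Int.cast_add, Int.cast_mul, toZ]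
          rw [heq, sub_self]
        · simp only [if_neg hd, Int.cast_zero, mul_zero, add_zero] at heq
          simp only [if_neg hd, Int.cast_sub, Int.cast_mul, mul_zero,
            add_zero, toZ]
          rw [heq, sub_self]
      obtain ⟨z, hz⟩ := h3
      refine ⟨z, ?_⟩
      rw [Eis.qCoeff_smul, heckeFormsGen_of_not_dvd (ℓ := ⟨ℓ, hℓ⟩) hN, heckeAlgebra.coe_T,
        Eis.qCoeff_heckeTLin hℓ hN, ← hz]
      split_ifs <;> push_cast [haf] <;> ring
  obtain ⟨m, hm, h3m, hgm⟩ := Eis.exists_maximal_of_eigen_mod Nat.prime_three hfmem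
    (haf 1).symm hf1 (fun ℓ => a ℓ) hgen
  obtain ⟨g, hg, χ, M, hM, hMc, hχ⟩ := Eis.exists_eigenform_of_maximalIdeal (N := N) m
  refine ⟨g, hg, M, hM, ?_, fun ℓ hℓ hN => ⟨χ (heckeFormsGen N 2 ⟨ℓ, hℓ⟩), hχ ℓ hℓ, ?_⟩⟩
  · have := hMc.symm ▸ h3m
    rwa [Ideal.mem_comap, map_natCast] at this
  · have := hMc.symm ▸ hgm ⟨ℓ, hℓ⟩
    rwa [Ideal.mem_comap, map_sub, map_intCast] at this

end Fermat.Agent.S49
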