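import Fermat.Statements.S53
import Fermat.Agent.Deform.Data

/-! # S53: existence of universal deformation rings -/

open GaloisRep

namespace Fermat.Agent.S53

theorem result
    (𝒪 : Type) [CommRing 𝒪] [IsDomain 𝒪] [IsDiscreteValuationRing 𝒪]
    [IsAdicComplete (IsLocalRing.maximalIdeal 𝒪) 𝒪] [Finite (IsLocalRing.ResidueField 𝒪)]
    (ρbar : ResidualGaloisRep (IsLocalRing.ResidueField 𝒪))
    (𝒟 : ∀ ⦃A : Type⦄ [CommRing A] [IsLocalRing A] [Algebra 𝒪 A], GaloisRepAdic A → Prop)
    (habs : ρbar.IsAbsolutelyIrreducible)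
    (h𝒟 : GaloisRep.IsDeformationCondition 𝒪 𝒟)
    (hbar : 𝒟 (GaloisRepAdic.ofResidualGaloisRep ρbar))
    (hfin : GaloisRep.TangentFinite 𝒪 ρbar 𝒟) :
    Nonempty (GaloisRep.DeformationRingData 𝒪 ρbar 𝒟) := by
  obtain ⟨F⟩ := Deform.nonempty_frame ρbar habs
  obtain ⟨C⟩ := Deform.exists_completion (F := F) h𝒟 hbar hfin
  exact ⟨{
    R := C.R
    residue_surjective := C.residue_surjective
    absIrr := habs
    ρ := Deform.ofMatrix (Deform.univMat C) (Deform.isGood_univMat C).cont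
    isOfType := Deform.isType_univMat C h𝒟
    residual_isEquiv := Deform.residual_isEquiv F (Deform.isGood_univMat C)
    universal := fun A _ _ _ _ _ _ hA ρA hD hres =>
      Deform.exists_unique_hom C h𝒟 A hA ρA hD hres }⟩

end Fermat.Agent.S53
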